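import Fermat.Agent.Gateway.Hecke.Galois

/-!
# P-S34 phase 2 (S35), package (P2-d), DEFS: the degeneracy push-forwards on `Pic⁰`

* `pushPic0 ψ hψ hfin hN : Pic0 K F' →+ Pic0 K F` : push-forward on `Pic⁰` along a finite
  homomorphism `ψ : F →ₐ[K] F'` of function fields satisfying the norm formula (the second half of
  the Prelude's `Pic0.correspondence`); `pushPic0_mk`, `pushPic0_smul` (equivariance for
  intertwined semilinear automorphisms);
* `degAlpha N q, degBeta N q : JZero (N * q) →+ JZero N` : the push-forwards along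
  `heckeAlphaBar Qb N q` (inclusion) and `heckeBetaBar Qb N q` (`f(z) ↦ f(q z)`);
  `degAlpha_mk`, `degBeta_mk`, `degAlpha_smul`, `degBeta_smul` (Galois equivariance).
-/

set_option autoImplicit false
set_option linter.unusedSectionVars false
set_option linter.style.haveILetI false

noncomputable section

open ModularCurve AlgebraicCurve IntermediateField

namespace Fermat.Agent.S35x.Degeneracy

open Fermat.Agent.Gateway.Hecke

/-! ### Push-forward on `Pic⁰` along a homomorphism of function fields -/

section General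

variable {K F F' : Type*} [Field K] [Field F] [Field F'] [Algebra K F] [Algebra K F']
variable (ψ : F →ₐ[K] F') (hψ : ψ.toRingHom.IsIntegral)

/-- Push-forward of divisors of degree zero along `ψ`. -/
def degZeroPushAlong :
    Divisor.degZero (K := K) (F := F') →+ Divisor.degZero (K := K) (F := F) :=
  ((Divisor.pushforwardAlong ψ hψ).domRestrict
    (Divisor.degZero (K := K) (F := F'))).codRestrict _
    (fun D => Divisor.pushforwardAlong_mem_degZero ψ hψ D.2)

@[simp]
theorem coe_degZeroPushAlong (D : Divisor.degZero (K := K) (F := F')) :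
    (degZeroPushAlong ψ hψ D : Divisor K F) =
      Divisor.pushforwardAlong ψ hψ (D : Divisor K F') :=
  rfl

variable (hfin : FiniteAlong K ψ) (hN : NormFormulaAlong K ψ hfin)

/-- Push-forward on `Pic⁰` along `ψ`. -/
def pushPic0 : Pic0 K F' →+ Pic0 K F :=
  QuotientAddGroup.map _ _ (degZeroPushAlong ψ hψ) (by
    rintro ⟨D, hD0⟩ hD
    simp only [AddSubgroup.mem_addSubgroupOf] at hD ⊢
    exact Divisor.isPrincipal_pushforwardAlong ψ hψ hfin hN hD)

theorem pushPic0_mk (D : Divisor.degZero (K := K) (F := F')) :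
    pushPic0 ψ hψ hfin hN (Pic0.mk D) = Pic0.mk (degZeroPushAlong ψ hψ D) :=
  rfl

/-- The push-forward on `Pic⁰` commutes with intertwined semilinear automorphisms. -/
theorem pushPic0_smul {g : SemilinearAut K F} {g' : SemilinearAut K F'}
    (hdeg : ∀ v : Place K F, v.deg ≠ 0) (h : Intertwines ψ g g') (x : Pic0 K F') :
    pushPic0 ψ hψ hfin hN (g' • x) = g • pushPic0 ψ hψ hfin hN x := by
  obtain ⟨D, rfl⟩ := Pic0.mk_surjective x
  rw [pushPic0_mk, SemilinearAut.pic0_smul_mk, SemilinearAut.pic0_smul_mk,
    pushPic0_mk]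
  refine congrArg Pic0.mk (Subtype.ext ?_)
  rw [SemilinearAut.coe_degZeroSMulHom, coe_degZeroPushAlong, coe_degZeroPushAlong,
    SemilinearAut.coe_degZeroSMulHom, pushforwardAlong_smul hdeg h]

end General

/-! ### The two degeneracy push-forwards `J₀(N q) → J₀(N)` -/

section Modular

local notation "Qb" => AlgebraicClosure ℚ
local notation "Γℚ" => (AlgebraicClosure ℚ ≃ₐ[ℚ] AlgebraicClosure ℚ)

variable (N q : ℕ) [NeZero N] [NeZero q]

/-- `N_α : J₀(N q) → J₀(N)`, the push-forward along the inclusion `α : F_N ⊆ F_{N q}`. -/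
def degAlpha : JZero (N * q) →+ JZero N :=
  pushPic0 (heckeAlphaBar Qb N q) (heckeAlphaBarIntegral Qb N q) (finiteAlong_alpha Qb N q)
    (normFormulaAlong_alpha Qb N q)

/-- `N_β : J₀(N q) → J₀(N)`, the push-forward along `β : F_N → F_{N q}`, `f(z) ↦ f(q z)`. -/
def degBeta : JZero (N * q) →+ JZero N :=
  pushPic0 (heckeBetaBar Qb N q) (heckeBetaBarIntegral Qb N q) (finiteAlong_beta Qb N q)
    (normFormulaAlong_beta Qb N q)

theorem degAlpha_mk (D : Divisor.degZero (K := Qb) (F := modularFunctionFieldBar (N * q))) :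
    degAlpha N q (Pic0.mk D) =
      Pic0.mk (degZeroPushAlong (heckeAlphaBar Qb N q) (heckeAlphaBarIntegral Qb N q) D) :=
  rfl

theorem degBeta_mk (D : Divisor.degZero (K := Qb) (F := modularFunctionFieldBar (N * q))) :
    degBeta N q (Pic0.mk D) =
      Pic0.mk (degZeroPushAlong (heckeBetaBar Qb N q) (heckeBetaBarIntegral Qb N q) D) :=
  rfl

/-- `N_α` commutes with the Galois action. -/
theorem degAlpha_smul (σ : Γℚ) (x : JZero (N * q)) :
    degAlpha N q (σ • x) = σ • degAlpha N q x := by
  rw [galois_smul_pic0_def, galois_smul_pic0_def]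
  exact pushPic0_smul _ _ _ _
    (fun v => by rw [deg_eq_one_full Qb N v]; exact one_ne_zero)
    (intertwines_alpha Qb N q σ) x

/-- `N_β` commutes with the Galois action. -/
theorem degBeta_smul (σ : Γℚ) (x : JZero (N * q)) :
    degBeta N q (σ • x) = σ • degBeta N q x := by
  rw [galois_smul_pic0_def, galois_smul_pic0_def]
  exact pushPic0_smul _ _ _ _
    (fun v => by rw [deg_eq_one_full Qb N v]; exact one_ne_zero)
    (intertwines_beta Qb N q σ) x

end Modular

end Fermat.Agent.S35x.Degeneracy
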