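import Fermat.Agent.S35x.Degeneracy.Defs
import Fermat.Agent.S35x.LevelHom
import Fermat.Agent.Gateway.S31.FromExport
import Fermat.Agent.Lib.FrobeniusExists

/-!
# P-S34 phase 2 (S35), package (P2-d): the degeneracy push-forwards commute with `T_ℓ` on torsion

`degAlpha N q, degBeta N q : J₀(N q) → J₀(N)` intertwine the Hecke correspondences `T_ℓ` of the two
levels on `m`-torsion, for every prime `ℓ ∤ m N q` (`degAlpha_hecke`, `degBeta_hecke`), hence the
Hecke actions `eta` of the export contract along any ring homomorphism `r` of Hecke algebras with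
`r T_ℓ = T_ℓ` (`degAlpha_eta`, `degBeta_eta`; with `r = levelHom`:
`degAlpha_eta_eq_zero`, `degBeta_eta_eq_zero`).

The proof uses NO geometry (no base-change squares): both levels satisfy the Eichler-Shimura
relation `φ² - T_ℓ φ + ℓ = 0` for one and the same Frobenius lift `φ` at `ℓ` (export contract
(E6)), the push-forwards commute with `φ`, and `φ` is bijective on torsion:
`P (T_ℓ (φ x')) = P (φ² x' + ℓ x') = φ² P x' + ℓ P x' = T_ℓ (φ P x') = T_ℓ (P (φ x'))`.
-/

set_option autoImplicit false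
set_option linter.unusedSectionVars false
set_option linter.style.haveILetI false

noncomputable section

open ModularCurve AlgebraicCurve IntermediateField

namespace Fermat.Agent.S35x.Degeneracy

open Fermat.Agent.Gateway.Hecke Fermat.Agent.Gateway.S31Red

local notation "Qb" => AlgebraicClosure ℚ
local notation "Γℚ" => (AlgebraicClosure ℚ ≃ₐ[ℚ] AlgebraicClosure ℚ)

variable {N q : ℕ} [NeZero N] [NeZero q]

/-- **Key lemma.** A Galois-equivariant additive map `P : J₀(N q) → J₀(N)` intertwines the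
Hecke correspondences `T_ℓ` on `m`-torsion, `ℓ ∤ m N q`, as soon as both levels satisfy the
Eichler-Shimura relation. -/
theorem map_hecke_of_eichlerShimura (P : JZero (N * q) →+ JZero N)
    (hP : ∀ (σ : Γℚ) (x : JZero (N * q)), P (σ • x) = σ • P x)
    (h6 : TorsionEichlerShimura (N * q)) (h6' : TorsionEichlerShimura N)
    {m ℓ : ℕ} (hℓ : ℓ.Prime) (hℓm : ¬ ℓ ∣ m * (N * q)) (x : JZero (N * q)) (hx : m • x = 0) :
    haveI : NeZero ℓ := ⟨hℓ.ne_zero⟩
    P (heckeOperatorAlong Qb (N * q) ℓ x) = heckeOperatorAlong Qb N ℓ (P x) := by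
  haveI : NeZero ℓ := ⟨hℓ.ne_zero⟩
  obtain ⟨A, φ, hA, hφ⟩ := Fermat.Agent.Lib.exists_isFrobeniusAt ℓ hℓ
  have hℓm' : ¬ ℓ ∣ m * N := fun h =>
    hℓm (h.trans ⟨q, by ring⟩)
  -- `x = φ • x'`
  set x' : JZero (N * q) := φ⁻¹ • x with hx'def
  have hxx' : φ • x' = x := smul_inv_smul φ x
  have hx' : m • x' = 0 := by
    rw [hx'def, smul_comm, hx]
    exact (DistribSMul.toAddMonoidHom (JZero (N * q)) φ⁻¹).map_zero
  have hPx' : m • P x' = 0 := by rw [← map_nsmul, hx', map_zero]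
  have e1 := h6 m ℓ hℓ hℓm A hA φ hφ x' hx'
  have e2 := h6' m ℓ hℓ hℓm' A hA φ hφ (P x') hPx'
  rw [hxx'] at e1
  rw [← hP, hxx'] at e2
  -- `T x = φ φ x' + ℓ x'` and `T' (P x) = φ φ (P x') + ℓ (P x')`
  have e1' : heckeOperatorAlong Qb (N * q) ℓ x = φ • x + ℓ • x' := by
    have := e1
    rw [sub_add_eq_add_sub, sub_eq_zero] at this
    exact this.symm
  have e2' : heckeOperatorAlong Qb N ℓ (P x) = φ • P x + ℓ • P x' := by
    have := e2
    rw [sub_add_eq_add_sub, sub_eq_zero] at this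
    exact this.symm
  rw [e1', e2', map_add, map_nsmul, hP]

/-- **(P2-d), `α` part.** `N_α ∘ T_ℓ = T_ℓ ∘ N_α` on `m`-torsion, `ℓ ∤ m N q`. -/
theorem degAlpha_hecke (h6 : TorsionEichlerShimura (N * q)) (h6' : TorsionEichlerShimura N)
    {m ℓ : ℕ} (hℓ : ℓ.Prime) (hℓm : ¬ ℓ ∣ m * (N * q)) (x : JZero (N * q)) (hx : m • x = 0) :
    haveI : NeZero ℓ := ⟨hℓ.ne_zero⟩
    degAlpha N q (heckeOperatorAlong Qb (N * q) ℓ x) =
      heckeOperatorAlong Qb N ℓ (degAlpha N q x) :=
  map_hecke_of_eichlerShimura (degAlpha N q) (degAlpha_smul N q) h6 h6' hℓ hℓm x hx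

/-- **(P2-d), `β` part.** `N_β ∘ T_ℓ = T_ℓ ∘ N_β` on `m`-torsion, `ℓ ∤ m N q`. -/
theorem degBeta_hecke (h6 : TorsionEichlerShimura (N * q)) (h6' : TorsionEichlerShimura N)
    {m ℓ : ℕ} (hℓ : ℓ.Prime) (hℓm : ¬ ℓ ∣ m * (N * q)) (x : JZero (N * q)) (hx : m • x = 0) :
    haveI : NeZero ℓ := ⟨hℓ.ne_zero⟩
    degBeta N q (heckeOperatorAlong Qb (N * q) ℓ x) =
      heckeOperatorAlong Qb N ℓ (degBeta N q x) :=
  map_hecke_of_eichlerShimura (degBeta N q) (degBeta_smul N q) h6 h6' hℓ hℓm x hx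

/-! ### The `eta`-form: compatibility with the Hecke actions of the export contract -/

section Eta

open CuspForm

variable {S : Finset ℕ}

/-- The map induced on `m`-torsion by an additive map `P : J₀(N q) → J₀(N)`. -/
def torsMap (P : JZero (N * q) →+ JZero N) (m : ℕ) : JTors (N * q) m →+ JTors N m :=
  (P.comp (AddSubgroup.subtype _)).codRestrict _ (fun x => by
    rw [Pic0.mem_torsion]
    show (m : ℤ) • P (x : JZero (N * q)) = 0
    rw [← map_zsmul, Pic0.mem_torsion.mp x.2, map_zero])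

@[simp]
theorem coe_torsMap (P : JZero (N * q) →+ JZero N) (m : ℕ) (x : JTors (N * q) m) :
    ((torsMap P m x : JTors N m) : JZero N) = P (x : JZero (N * q)) :=
  rfl

/-- auxiliary: additivity step of `torsMap_eta_of_eichlerShimura`. -/
theorem eta_add_aux (P : JZero (N * q) →+ JZero N)
    (E : HeckeTorsionAction (N * q) S) (E' : HeckeTorsionAction N S)
    (r : heckeAlgebra (N * q) 2 (↑S : Set ℕ) →+* heckeAlgebra N 2 (↑S : Set ℕ))
    {m : ℕ} (hm : 0 < m) (a b : heckeAlgebra (N * q) 2 (↑S : Set ℕ)) (x : JTors (N * q) m)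
    (ha : torsMap P m (E.eta m hm a x) = E'.eta m hm (r a) (torsMap P m x))
    (hb : torsMap P m (E.eta m hm b x) = E'.eta m hm (r b) (torsMap P m x)) :
    torsMap P m (E.eta m hm (a + b) x) = E'.eta m hm (r (a + b)) (torsMap P m x) := by
  have h2 : E.eta m hm (a + b) x = E.eta m hm a x + E.eta m hm b x := by
    rw [(E.eta m hm).map_add]; rfl
  have h3 : E'.eta m hm (r (a + b)) (torsMap P m x) =
      E'.eta m hm (r a) (torsMap P m x) + E'.eta m hm (r b) (torsMap P m x) := by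
    rw [r.map_add, (E'.eta m hm).map_add]; rfl
  rw [h2, h3, map_add, ha, hb]

/-- auxiliary: multiplicativity step of `torsMap_eta_of_eichlerShimura`. -/
theorem eta_mul_aux (P : JZero (N * q) →+ JZero N)
    (E : HeckeTorsionAction (N * q) S) (E' : HeckeTorsionAction N S)
    (r : heckeAlgebra (N * q) 2 (↑S : Set ℕ) →+* heckeAlgebra N 2 (↑S : Set ℕ))
    {m : ℕ} (hm : 0 < m) (a b : heckeAlgebra (N * q) 2 (↑S : Set ℕ)) (x : JTors (N * q) m)
    (ha : ∀ x, torsMap P m (E.eta m hm a x) = E'.eta m hm (r a) (torsMap P m x))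
    (hb : torsMap P m (E.eta m hm b x) = E'.eta m hm (r b) (torsMap P m x)) :
    torsMap P m (E.eta m hm (a * b) x) = E'.eta m hm (r (a * b)) (torsMap P m x) := by
  have h2 : E.eta m hm (a * b) x = E.eta m hm a (E.eta m hm b x) := by
    rw [(E.eta m hm).map_mul]; rfl
  have h3 : E'.eta m hm (r (a * b)) (torsMap P m x) =
      E'.eta m hm (r a) (E'.eta m hm (r b) (torsMap P m x)) := by
    rw [r.map_mul, (E'.eta m hm).map_mul]; rfl
  rw [h2, h3, ha, hb]

/-- **(D3), general form.** A Galois-equivariant additive map `P : J₀(N q) → J₀(N)` intertwines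
the Hecke actions on `m`-torsion of the two levels along any ring homomorphism `r` of Hecke
algebras with `r T_ℓ = T_ℓ`, provided `S` contains the primes dividing `N q` and `m`. -/
theorem torsMap_eta_of_eichlerShimura (P : JZero (N * q) →+ JZero N)
    (hP : ∀ (σ : Γℚ) (x : JZero (N * q)), P (σ • x) = σ • P x)
    (h6 : TorsionEichlerShimura (N * q)) (h6' : TorsionEichlerShimura N)
    (hNS : ∀ p : ℕ, p.Prime → p ∣ N * q → p ∈ S)
    (E : HeckeTorsionAction (N * q) S) (E' : HeckeTorsionAction N S)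
    (r : heckeAlgebra (N * q) 2 (↑S : Set ℕ) →+* heckeAlgebra N 2 (↑S : Set ℕ))
    (hr : ∀ (ℓ : ℕ) (hℓ : ℓ.Prime) (hℓN : ¬ ℓ ∣ N) (hℓNq : ¬ ℓ ∣ N * q) (hℓS : ℓ ∉ (↑S : Set ℕ)),
      r (heckeAlgebra.T hℓ hℓNq hℓS) = heckeAlgebra.T hℓ hℓN hℓS)
    {m : ℕ} (hm : 0 < m) (hmS : ∀ p : ℕ, p.Prime → p ∣ m → p ∈ S)
    (t : heckeAlgebra (N * q) 2 (↑S : Set ℕ)) (x : JTors (N * q) m) :
    torsMap P m (E.eta m hm t x) = E'.eta m hm (r t) (torsMap P m x) := by
  revert x
  obtain ⟨t, ht⟩ := t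
  induction ht using Algebra.adjoin_induction with
  | mem y hy =>
    intro x
    rcases hy with ⟨ℓ, hℓ, hℓNq, hℓS, rfl⟩ | ⟨p, hpN, hp, hpS, rfl⟩
    · have hℓN : ¬ ℓ ∣ N := fun h => hℓNq (h.trans (dvd_mul_right N q))
      have hℓm : ¬ ℓ ∣ m * (N * q) := by
        intro h
        rcases (Nat.Prime.dvd_mul hℓ).mp h with h | h
        · exact hℓS (by exact_mod_cast hmS ℓ hℓ h)
        · exact hℓNq h
      have hT : (⟨heckeTLin 2 hℓ hℓNq, Algebra.subset_adjoin
          (Or.inl ⟨ℓ, hℓ, hℓNq, hℓS, rfl⟩)⟩ : heckeAlgebra (N * q) 2 (↑S : Set ℕ))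
          = heckeAlgebra.T hℓ hℓNq hℓS := rfl
      rw [hT, hr ℓ hℓ hℓN hℓNq hℓS]
      apply Subtype.ext
      rw [coe_torsMap, E.eta_T, E'.eta_T, coe_torsMap]
      exact map_hecke_of_eichlerShimura P hP h6 h6' hℓ hℓm _ (nsmul_coe_eq_zero x)
    · exact absurd (hNS p hp hpN) (by exact_mod_cast hpS)
  | algebraMap n =>
    intro x
    have h1 : (⟨algebraMap ℤ _ n, Subalgebra.algebraMap_mem _ n⟩ :
        heckeAlgebra (N * q) 2 (↑S : Set ℕ)) = (n : heckeAlgebra (N * q) 2 (↑S : Set ℕ)) := by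
      apply Subtype.ext
      simp
    rw [h1, map_intCast, map_intCast, map_intCast]
    rw [show ((n : AddMonoid.End (JTors (N * q) m)) x) = n • x from by
        simp [AddMonoid.End.intCast_apply],
      show ((n : AddMonoid.End (JTors N m)) (torsMap P m x)) = n • torsMap P m x from by
        simp [AddMonoid.End.intCast_apply]]
    rw [map_zsmul]
  | add y z hy hz hy' hz' =>
    intro x
    exact eta_add_aux P E E' r hm ⟨y, hy⟩ ⟨z, hz⟩ x (hy' x) (hz' x)
  | mul y z hy hz hy' hz' =>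
    intro x
    exact eta_mul_aux P E E' r hm ⟨y, hy⟩ ⟨z, hz⟩ x hy' (hz' x)

/-- **(D3) for `N_α`**, with `r = levelHom`. -/
theorem degAlpha_eta (h6 : TorsionEichlerShimura (N * q)) (h6' : TorsionEichlerShimura N)
    (hNS : ∀ p : ℕ, p.Prime → p ∣ N * q → p ∈ (↑S : Set ℕ))
    (E : HeckeTorsionAction (N * q) S) (E' : HeckeTorsionAction N S)
    {m : ℕ} (hm : 0 < m) (hmS : ∀ p : ℕ, p.Prime → p ∣ m → p ∈ S)
    (t : heckeAlgebra (N * q) 2 (↑S : Set ℕ)) (x : JTors (N * q) m) :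
    torsMap (degAlpha N q) m (E.eta m hm t x) =
      E'.eta m hm (levelHom hNS t) (torsMap (degAlpha N q) m x) :=
  torsMap_eta_of_eichlerShimura (degAlpha N q) (degAlpha_smul N q) h6 h6'
    (fun p hp hpN => by exact_mod_cast hNS p hp hpN) E E' (levelHom hNS)
    (fun ℓ hℓ hℓN hℓNq hℓS => levelHom_T hNS hℓ hℓN hℓNq hℓS) hm hmS t x

/-- **(D3) for `N_β`**, with `r = levelHom`. -/
theorem degBeta_eta (h6 : TorsionEichlerShimura (N * q)) (h6' : TorsionEichlerShimura N)
    (hNS : ∀ p : ℕ, p.Prime → p ∣ N * q → p ∈ (↑S : Set ℕ))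
    (E : HeckeTorsionAction (N * q) S) (E' : HeckeTorsionAction N S)
    {m : ℕ} (hm : 0 < m) (hmS : ∀ p : ℕ, p.Prime → p ∣ m → p ∈ S)
    (t : heckeAlgebra (N * q) 2 (↑S : Set ℕ)) (x : JTors (N * q) m) :
    torsMap (degBeta N q) m (E.eta m hm t x) =
      E'.eta m hm (levelHom hNS t) (torsMap (degBeta N q) m x) :=
  torsMap_eta_of_eichlerShimura (degBeta N q) (degBeta_smul N q) h6 h6'
    (fun p hp hpN => by exact_mod_cast hNS p hp hpN) E E' (levelHom hNS)
    (fun ℓ hℓ hℓN hℓNq hℓS => levelHom_T hNS hℓ hℓN hℓNq hℓS) hm hmS t x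

/-- **(P2-d), final export.** If `t` lies in the kernel of the level lowering homomorphism
`levelHom : 𝕋(N q) → 𝕋(N)`, then `t` maps the `m`-torsion of `J₀(N q)` into
`ker N_α ∩ ker N_β` (`S ⊇` primes of `N q m`). -/
theorem deg_eta_eq_zero (h6 : TorsionEichlerShimura (N * q)) (h6' : TorsionEichlerShimura N)
    (hNS : ∀ p : ℕ, p.Prime → p ∣ N * q → p ∈ (↑S : Set ℕ))
    (E : HeckeTorsionAction (N * q) S) (E' : HeckeTorsionAction N S)
    {m : ℕ} (hm : 0 < m) (hmS : ∀ p : ℕ, p.Prime → p ∣ m → p ∈ S)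
    (t : heckeAlgebra (N * q) 2 (↑S : Set ℕ)) (ht : levelHom hNS t = 0) (x : JTors (N * q) m) :
    degAlpha N q ((E.eta m hm t x : JTors (N * q) m) : JZero (N * q)) = 0 ∧
      degBeta N q ((E.eta m hm t x : JTors (N * q) m) : JZero (N * q)) = 0 := by
  have h1 := degAlpha_eta h6 h6' hNS E E' hm hmS t x
  have h2 := degBeta_eta h6 h6' hNS E E' hm hmS t x
  rw [ht, map_zero] at h1 h2
  constructor
  · have := congrArg (fun z : JTors N m => (z : JZero N)) h1
    simpa using this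
  · have := congrArg (fun z : JTors N m => (z : JZero N)) h2
    simpa using this

end Eta

end Fermat.Agent.S35x.Degeneracy
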