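import Fermat.Agent.S35x.Degeneracy.Defs
import Fermat.Agent.Gateway.Kummer.Basic

/-!
# P-S34 phase 2 (S35), package (P2-d), (D1): Kummer form of the degeneracy push-forwards

If `u` is a Kummer representative of the class `x` (`x = [D]`, `m D = div u`), then the norm of `u`
is a Kummer representative of the push-forward of `x`:
`IsKummerRep.pushPic0`, `isKummerRep_degAlpha`, `isKummerRep_degBeta`.
-/

set_option autoImplicit false
set_option linter.unusedSectionVars false
set_option linter.style.haveILetI false

noncomputable section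

open ModularCurve AlgebraicCurve IntermediateField

namespace Fermat.Agent.S35x.Degeneracy

open Fermat.Agent.Gateway.Hecke Fermat.Agent.Gateway.Kummer

section General

variable {K F F' : Type*} [Field K] [Field F] [Field F'] [Algebra K F] [Algebra K F']

/-- The norm of a Kummer representative is a Kummer representative of the push-forward. -/
theorem IsKummerRep.pushPic0 {m : ℕ} {x : Pic0 K F'} {u : F'} (hx : IsKummerRep m x u)
    (ψ : F →ₐ[K] F') (hψ : ψ.toRingHom.IsIntegral) (hfin : FiniteAlong K ψ)
    (hN : NormFormulaAlong K ψ hfin) :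
    IsKummerRep m (pushPic0 ψ hψ hfin hN x) (normAlong ψ u) := by
  obtain ⟨hu, D, rfl, hD⟩ := hx
  refine ⟨?_, degZeroPushAlong ψ hψ D, (pushPic0_mk ψ hψ hfin hN D).symm, fun P => ?_⟩
  · letI := algebraAlong ψ
    haveI : Module.Finite F F' := hfin
    exact Algebra.norm_ne_zero_iff.mpr hu
  · rw [coe_degZeroPushAlong]
    set E : Divisor K F' := (m : ℤ) • (D : Divisor K F') with hE
    have hEu : ∀ w : Place K F', E w = w.ord u := fun w => by
      rw [hE, ← hD w]; simp
    have hpush : Divisor.pushforwardAlong ψ hψ E P = P.ord (normAlong ψ u) := by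
      letI := algebraAlong ψ
      haveI := isScalarTower_along (K := K) ψ
      haveI := isIntegral_along (K := K) ψ hψ
      haveI : Module.Finite F F' := hfin
      exact hN u hu _ hEu P
    rw [← hpush, hE, map_zsmul]
    simp

end General

section Modular

local notation "Qb" => AlgebraicClosure ℚ

variable {N q : ℕ} [NeZero N] [NeZero q]

/-- **(D1) for `N_α`.** -/
theorem isKummerRep_degAlpha {m : ℕ} {x : JZero (N * q)} {u : modularFunctionFieldBar (N * q)}
    (h : IsKummerRep m x u) :
    IsKummerRep m (degAlpha N q x) (normAlong (heckeAlphaBar Qb N q) u) :=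
  IsKummerRep.pushPic0 h _ _ _ _

/-- **(D1) for `N_β`.** -/
theorem isKummerRep_degBeta {m : ℕ} {x : JZero (N * q)} {u : modularFunctionFieldBar (N * q)}
    (h : IsKummerRep m x u) :
    IsKummerRep m (degBeta N q x) (normAlong (heckeBetaBar Qb N q) u) :=
  IsKummerRep.pushPic0 h _ _ _ _

end Modular

end Fermat.Agent.S35x.Degeneracy
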