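import Fermat.Agent.S35x.Degeneracy.Kummer
import Fermat.Agent.Gateway.BaseChange.Modular

/-!
# P-S34 phase 2 (S35): Kummer representatives of the zero class

Converse of `IsKummerRep.eq_zero_of_eq_const_mul_pow`: a Kummer representative of the zero class
is a constant times an `m`-th power, provided functions without zeros and poles are constant.

Consequence used in (G2): if `u` is a Kummer representative of a class `x ∈ J₀(N q)` killed by the
degeneracy push-forward `degAlpha` (resp. `degBeta`), then the norm `N_α u` (resp. `N_β u`) is a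
constant times an `m`-th power in the function field of level `N`.
-/

set_option autoImplicit false
set_option linter.unusedSectionVars false

noncomputable section

open ModularCurve AlgebraicCurve IntermediateField

namespace Fermat.Agent.S35x.Degeneracy

open Fermat.Agent.Gateway.Hecke Fermat.Agent.Gateway.Kummer

section General

variable {K F : Type*} [Field K] [Field F] [Algebra K F]

/-- A Kummer representative of the zero class is a constant times an `m`-th power. -/
theorem IsKummerRep.exists_eq_const_mul_pow
    (hconst : ∀ f : F, f ≠ 0 → (∀ P : Place K F, P.ord f = 0) → ∃ c : K, f = algebraMap K F c)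
    {m : ℕ} {u : F} (h : IsKummerRep m (0 : Pic0 K F) u) :
    ∃ (c : K) (g : F), c ≠ 0 ∧ g ≠ 0 ∧ u = algebraMap K F c * g ^ m := by
  obtain ⟨hu, D, hD0, hD⟩ := h
  rw [mk_eq_zero_iff] at hD0
  obtain ⟨g, hg, hDg⟩ := hD0
  have hgm : g ^ m ≠ 0 := pow_ne_zero _ hg
  have hquot : u / g ^ m ≠ 0 := div_ne_zero hu hgm
  obtain ⟨c, hc⟩ := hconst (u / g ^ m) hquot (fun P => by
    rw [div_eq_mul_inv, P.ord_mul hu (inv_ne_zero hgm), P.ord_inv, ← zpow_natCast, P.ord_zpow,
      ← hD P, hDg P]
    ring)
  have hc0 : c ≠ 0 := by
    rintro rfl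
    rw [map_zero] at hc
    exact hquot hc
  refine ⟨c, g, hc0, hg, ?_⟩
  rw [← hc, div_mul_cancel₀ _ hgm]

end General

section Modular

local notation "Qb" => AlgebraicClosure ℚ

variable {N q : ℕ} [NeZero N] [NeZero q]

/-- A Kummer representative of the zero class of `J₀(N)` is a constant times an `m`-th power. -/
theorem exists_eq_const_mul_pow_of_isKummerRep_zero {m : ℕ} {u : modularFunctionFieldBar N}
    (h : IsKummerRep m (0 : JZero N) u) :
    ∃ (c : Qb) (g : modularFunctionFieldBar N), c ≠ 0 ∧ g ≠ 0 ∧
      u = algebraMap Qb (modularFunctionFieldBar N) c * g ^ m :=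
  IsKummerRep.exists_eq_const_mul_pow
    (fun f hf hord => Fermat.Agent.Gateway.BaseChange.Modular.const_of_ord_eq_zero_FL Qb N f hf hord) h

/-- If `degAlpha` kills the class `x`, the norm along `α` of a Kummer representative of `x` is a
constant times an `m`-th power at level `N`. -/
theorem normAlpha_eq_const_mul_pow {m : ℕ} {x : JZero (N * q)}
    {u : modularFunctionFieldBar (N * q)} (h : IsKummerRep m x u) (hx : degAlpha N q x = 0) :
    ∃ (c : Qb) (g : modularFunctionFieldBar N), c ≠ 0 ∧ g ≠ 0 ∧
      normAlong (heckeAlphaBar Qb N q) u = algebraMap Qb (modularFunctionFieldBar N) c * g ^ m := by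
  have h1 := isKummerRep_degAlpha h
  rw [hx] at h1
  exact exists_eq_const_mul_pow_of_isKummerRep_zero h1

/-- If `degBeta` kills the class `x`, the norm along `β` of a Kummer representative of `x` is a
constant times an `m`-th power at level `N`. -/
theorem normBeta_eq_const_mul_pow {m : ℕ} {x : JZero (N * q)}
    {u : modularFunctionFieldBar (N * q)} (h : IsKummerRep m x u) (hx : degBeta N q x = 0) :
    ∃ (c : Qb) (g : modularFunctionFieldBar N), c ≠ 0 ∧ g ≠ 0 ∧
      normAlong (heckeBetaBar Qb N q) u = algebraMap Qb (modularFunctionFieldBar N) c * g ^ m := by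
  have h1 := isKummerRep_degBeta h
  rw [hx] at h1
  exact exists_eq_const_mul_pow_of_isKummerRep_zero h1

end Modular

end Fermat.Agent.S35x.Degeneracy
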