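import Fermat.Agent.S35x.Degeneracy.SquaresBasis

/-!
# P-S34 phase 2 (S35), (P2-d)/(D2), divisor level: the degeneracy push-forwards commute with `T_ℓ`

`N` a level, `q ∤ N` and `ℓ ∤ N q` primes.  For the two degeneracy maps
`α = heckeAlphaBar Kbar N q`, `β = heckeBetaBar Kbar N q : F_N → F_{Nq}` and every divisor `D` of
`F_{Nq}`:

* `pushforwardAlong_alpha_heckeDivBar` : `α_* (T_ℓ^{(Nq)} D) = T_ℓ^{(N)} (α_* D)`;
* `pushforwardAlong_beta_heckeDivBar`  : `β_* (T_ℓ^{(Nq)} D) = T_ℓ^{(N)} (β_* D)`.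

Proof: `T_ℓ = (α_ℓ)_* ∘ β_ℓ^*`; functoriality of the push-forward (`α_ℓ^{Nq} ∘ a = a' ∘ α_ℓ^N`) and
base change `β_ℓ^* ∘ a_* = a'_* ∘ (β_ℓ^{Nq})^*` in the square `F_N, F_{Nq}, F_{Nℓ}, F_{Nqℓ}`
(`Descent/BaseChangeSq.lean`), whose norm compatibility follows from the power bases of
`SquaresBasis.lean` (`1, b(j), …, b(j)^q` over `a F_N` is carried to `1, b(j_ℓ), …, b(j_ℓ)^q`
over `a F_{Nℓ}`).  Here `a'` is the degeneracy map of the same type at level `N ℓ`, followed by the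
identification `F_{Nℓq} = F_{Nqℓ}`.
-/

set_option autoImplicit false
set_option linter.unusedSectionVars false
set_option linter.style.haveILetI false

noncomputable section

open Polynomial ModularCurve AlgebraicCurve IntermediateField

namespace Fermat.Agent.S35x.Degeneracy

open Fermat.Agent.S24 Fermat.Agent.S24.Setup
open Fermat.Agent.S28 Fermat.Agent.S28.Tower Fermat.Agent.Gateway.Hecke Fermat.Agent.Gateway.ESC
open Fermat.Agent.Gateway Fermat.Agent.Gateway.Descent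

/-! ### Transport of bases along a bijective homomorphism -/

section Transport

variable {K F F' F'' : Type*} [Field K] [Field F] [Field F'] [Field F'']
  [Algebra K F] [Algebra K F'] [Algebra K F'']

theorem exists_basis_comp_of_bijective (φ : F →ₐ[K] F') (e : F' →ₐ[K] F'')
    (he : Function.Bijective e) {ι : Type*}
    (B : @Module.Basis ι F F' _ _ (algebraAlong φ).toModule) :
    ∃ B' : @Module.Basis ι F F'' _ _ (algebraAlong (e.comp φ)).toModule, ∀ i, B' i = e (B i) := by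
  letI := algebraAlong φ
  letI := algebraAlong (e.comp φ)
  let E : F' ≃ₗ[F] F'' := LinearEquiv.ofBijective
    { toFun := e
      map_add' := map_add e
      map_smul' := fun x y => by
        rw [Algebra.smul_def, map_mul, RingHom.id_apply, Algebra.smul_def]
        rfl } he
  exact ⟨B.map E, fun i => by rw [Module.Basis.map_apply]; rfl⟩

theorem finiteAlong_comp_of_bijective (φ : F →ₐ[K] F') (e : F' →ₐ[K] F'')
    (he : Function.Bijective e) (hφ : FiniteAlong K φ) : FiniteAlong K (e.comp φ) := by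
  letI := algebraAlong φ
  letI := algebraAlong (e.comp φ)
  haveI : Module.Finite F F' := hφ
  let E : F' ≃ₗ[F] F'' := LinearEquiv.ofBijective
    { toFun := e
      map_add' := map_add e
      map_smul' := fun x y => by
        rw [Algebra.smul_def, map_mul, RingHom.id_apply, Algebra.smul_def]
        rfl } he
  exact Module.Finite.equiv E

end Transport

/-! ### The identification `F_{Nℓq} = F_{Nqℓ}` -/

section Cast

variable (N q ℓ : ℕ) [NeZero N] [NeZero q] [NeZero ℓ]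

/-- the identification `F_{Nℓq} → F_{Nqℓ}` -/
def castHom : FF (N * ℓ * q) →ₐ[Kbar] FF (N * q * ℓ) :=
  Incl.incl (dvd_of_eq (Nat.mul_right_comm N ℓ q))

@[simp] theorem coe_castHom (x : FF (N * ℓ * q)) :
    ((castHom N q ℓ x : FF (N * q * ℓ)) : LaurentSeries Kbar) = (x : LaurentSeries Kbar) :=
  Incl.coe_incl _ x

theorem castHom_bijective : Function.Bijective (castHom N q ℓ) := by
  refine ⟨(castHom N q ℓ).toRingHom.injective, fun y => ?_⟩
  refine ⟨Incl.incl (dvd_of_eq (Nat.mul_right_comm N q ℓ)) y, Subtype.ext ?_⟩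
  rw [coe_castHom, Incl.coe_incl]

theorem isIntegral_castHom : (castHom N q ℓ).toRingHom.IsIntegral :=
  isIntegral_incl _

end Cast

/-! ### The generic square -/

section Main

variable {N q ℓ : ℕ} [NeZero N] [NeZero q] [NeZero ℓ]

theorem deg_ne_zero_FF (M : ℕ) [NeZero M] (v : Place Kbar (FF M)) : v.deg ≠ 0 := by
  rw [deg_eq_one_full Kbar M v]
  exact one_ne_zero

set_option maxHeartbeats 1000000 in
/-- **The generic square.**  `(a, b)`, `(a₁, b₁)` pairs of degeneracy maps of the same type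
(`(α, β)` or `(β, α)`) at the levels `N` and `N ℓ`, described on `q`-expansions by `S`, `S'`. -/
theorem pushforwardAlong_heckeDivBar_of_degPair
    (hq : q.Prime) (hqN : ¬ q ∣ N) (hℓ : ℓ.Prime) (hℓq : ℓ ≠ q)
    (S S' : LaurentSeries Kbar → LaurentSeries Kbar)
    (hS : ∀ f, S (qExpand Kbar ℓ f) = qExpand Kbar ℓ (S f))
    (hS' : ∀ f, S' (qExpand Kbar ℓ f) = qExpand Kbar ℓ (S' f))
    (a b : FF N →ₐ[Kbar] FF (N * q)) (a₁ b₁ : FF (N * ℓ) →ₐ[Kbar] FF (N * ℓ * q))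
    (ha : ∀ x, ((a x : FF (N * q)) : LaurentSeries Kbar) = S x)
    (hb : ∀ x, ((b x : FF (N * q)) : LaurentSeries Kbar) = S' x)
    (ha₁ : ∀ x, ((a₁ x : FF (N * ℓ * q)) : LaurentSeries Kbar) = S x)
    (hb₁ : ∀ x, ((b₁ x : FF (N * ℓ * q)) : LaurentSeries Kbar) = S' x)
    (hab : DegPair Kbar N q a b) (hab₁ : DegPair Kbar (N * ℓ) q a₁ b₁)
    (hfin : FiniteAlong Kbar a) (hdeg : finrankAlong Kbar a = q + 1)
    (hfin₁ : FiniteAlong Kbar a₁) (hdeg₁ : finrankAlong Kbar a₁ = q + 1)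
    (hai : a.toRingHom.IsIntegral)
    (hα' : HeckeAlphaBarIntegral Kbar (N * q) ℓ) (hβ' : HeckeBetaBarIntegral Kbar (N * q) ℓ)
    (hα : HeckeAlphaBarIntegral Kbar N ℓ) (hβ : HeckeBetaBarIntegral Kbar N ℓ)
    (D : Divisor Kbar (FF (N * q))) :
    Divisor.pushforwardAlong a hai (heckeDivBar hα' hβ' D) =
      heckeDivBar hα hβ (Divisor.pushforwardAlong a hai D) := by
  classical
  have hqNℓ : ¬ q ∣ N * ℓ := by
    intro h
    rcases (Nat.Prime.dvd_mul hq).mp h with h' | h'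
    · exact hqN h'
    · exact hℓq ((Nat.prime_dvd_prime_iff_eq hq hℓ).mp h').symm
  have ha₁i : a₁.toRingHom.IsIntegral := isIntegral_of_finiteAlong _ hfin₁
  -- the degeneracy map at level `N ℓ`, with values in `F_{Nqℓ}`
  set a' : FF (N * ℓ) →ₐ[Kbar] FF (N * q * ℓ) := (castHom N q ℓ).comp a₁ with ha'
  have ha'i : a'.toRingHom.IsIntegral :=
    RingHom.IsIntegral.trans _ _ ha₁i (isIntegral_castHom N q ℓ)
  have hfin' : FiniteAlong Kbar a' :=
    finiteAlong_comp_of_bijective a₁ (castHom N q ℓ) (castHom_bijective N q ℓ) hfin₁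
  have hcoe_a' : ∀ x, ((a' x : FF (N * q * ℓ)) : LaurentSeries Kbar) = S x := by
    intro x
    rw [ha', AlgHom.comp_apply, coe_castHom, ha₁]
  -- the commutative square
  have hsq : ∀ x : FF N, heckeBetaBar Kbar (N * q) ℓ (a x) = a' (heckeBetaBar Kbar N ℓ x) := by
    intro x
    apply Subtype.ext
    rw [coe_heckeBetaBar, ha, hcoe_a', coe_heckeBetaBar, hS]
  -- functoriality
  have hfun : (heckeAlphaBar Kbar (N * q) ℓ).comp a = a'.comp (heckeAlphaBar Kbar N ℓ) := by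
    refine AlgHom.ext fun x => Subtype.ext ?_
    rw [AlgHom.comp_apply, AlgHom.comp_apply, coe_heckeAlphaBar, ha, hcoe_a', coe_heckeAlphaBar]
  rw [heckeDivBar_apply', heckeDivBar_apply']
  have e1 : ∀ E : Divisor Kbar (FF (N * q * ℓ)),
      Divisor.pushforwardAlong a hai
        (Divisor.pushforwardAlong (heckeAlphaBar Kbar (N * q) ℓ) hα' E) =
      Divisor.pushforwardAlong (heckeAlphaBar Kbar N ℓ) hα
        (Divisor.pushforwardAlong a' ha'i E) := by
    intro E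
    rw [← pushforwardAlong_comp (deg_ne_zero_FF N) a (heckeAlphaBar Kbar (N * q) ℓ) hai hα'
      (RingHom.IsIntegral.trans _ _ hai hα'),
      ← pushforwardAlong_comp (deg_ne_zero_FF N) (heckeAlphaBar Kbar N ℓ) a' hα ha'i
        (RingHom.IsIntegral.trans _ _ hα ha'i)]
    exact pushforwardAlong_congr hfun _ _ E
  rw [e1]
  congr 1
  symm
  -- base change
  refine pullbackAlong_pushforwardAlong a (heckeBetaBar Kbar N ℓ) a' (heckeBetaBar Kbar (N * q) ℓ)
    hai hβ ha'i hβ' hfin (finiteAlong_beta Kbar N ℓ) hfin' (finiteAlong_beta Kbar (N * q) ℓ)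
    hsq ?_ D
  -- norm compatibility
  obtain ⟨B, hB⟩ := exists_powBasis_of_degPair hab hfin hdeg hq hqN one_ne_zero (one_dvd N)
    (Nat.coprime_one_left q)
  obtain ⟨B₁, hB₁⟩ := exists_powBasis_of_degPair hab₁ hfin₁ hdeg₁ hq hqNℓ hℓ.ne_zero
    (dvd_mul_left ℓ N) ((Nat.coprime_primes hℓ hq).mpr hℓq)
  obtain ⟨B', hB'⟩ := exists_basis_comp_of_bijective a₁ (castHom N q ℓ)
    (castHom_bijective N q ℓ) B₁
  intro t
  letI := algebraAlong a
  letI := algebraAlong a'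
  refine HeckeSq.norm_map_of_basis_aux (heckeBetaBar Kbar N ℓ).toRingHom
    (heckeBetaBar Kbar (N * q) ℓ).toRingHom ?_ B B' ?_ t
  · intro e
    exact hsq e
  · intro j
    rw [hB', hB₁, hB]
    show castHom N q ℓ (b₁ (genS Kbar (N * ℓ) hℓ.ne_zero (dvd_mul_left ℓ N)) ^ (j : ℕ)) =
      heckeBetaBar Kbar (N * q) ℓ (b (genS Kbar N one_ne_zero (one_dvd N)) ^ (j : ℕ))
    rw [map_pow, map_pow]
    congr 1
    apply Subtype.ext
    rw [coe_castHom, hb₁, coe_heckeBetaBar, hb, ← hS']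
    congr 1
    show jS Kbar 1 ℓ = qExpand Kbar ℓ (jS Kbar 1 1)
    rw [← expand_eq_qExpand, expand_jS (NeZero.ne ℓ) one_ne_zero, mul_one]

/-! ### The two squares -/

theorem qExpand_qExpand_comm (f : LaurentSeries Kbar) :
    qExpand Kbar q (qExpand Kbar ℓ f) = qExpand Kbar ℓ (qExpand Kbar q f) := by
  rw [← expand_eq_qExpand, ← expand_eq_qExpand, expand_expand (NeZero.ne q) (NeZero.ne ℓ),
    expand_expand (NeZero.ne ℓ) (NeZero.ne q), mul_comm]

theorem finrankAlong_alpha_eq (M : ℕ) [NeZero M] (hq : q.Prime) (hqM : ¬ q ∣ M) :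
    finrankAlong Kbar (heckeAlphaBar Kbar M q) = q + 1 :=
  HeckeSq.finrank_mul_prime M q hq hqM

theorem not_dvd_mul_of_ne (hq : q.Prime) (hqN : ¬ q ∣ N) (hℓ : ℓ.Prime) (hℓq : ℓ ≠ q) :
    ¬ q ∣ N * ℓ := by
  intro h
  rcases (Nat.Prime.dvd_mul hq).mp h with h' | h'
  · exact hqN h'
  · exact hℓq ((Nat.prime_dvd_prime_iff_eq hq hℓ).mp h').symm

/-- **(D2), divisor level, `α`.**  `α_* ∘ T_ℓ^{(Nq)} = T_ℓ^{(N)} ∘ α_*` on divisors, for primes
`q ∤ N` and `ℓ ≠ q`. -/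
theorem pushforwardAlong_alpha_heckeDivBar
    (hq : q.Prime) (hqN : ¬ q ∣ N) (hℓ : ℓ.Prime) (hℓq : ℓ ≠ q)
    (hαq : HeckeAlphaBarIntegral Kbar N q)
    (hα' : HeckeAlphaBarIntegral Kbar (N * q) ℓ) (hβ' : HeckeBetaBarIntegral Kbar (N * q) ℓ)
    (hα : HeckeAlphaBarIntegral Kbar N ℓ) (hβ : HeckeBetaBarIntegral Kbar N ℓ)
    (D : Divisor Kbar (FF (N * q))) :
    Divisor.pushforwardAlong (heckeAlphaBar Kbar N q) hαq (heckeDivBar hα' hβ' D) =
      heckeDivBar hα hβ (Divisor.pushforwardAlong (heckeAlphaBar Kbar N q) hαq D) := by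
  haveI : CharZero Kbar := charZero_of_ratAlgebra Kbar
  obtain ⟨ζ, hζ⟩ := exists_prim_unit Kbar q hq.ne_zero
  have hqNℓ := not_dvd_mul_of_ne hq hqN hℓ hℓq
  exact pushforwardAlong_heckeDivBar_of_degPair hq hqN hℓ hℓq id (qExpand Kbar q)
    (fun _ => rfl) (fun f => qExpand_qExpand_comm f)
    (heckeAlphaBar Kbar N q) (heckeBetaBar Kbar N q)
    (heckeAlphaBar Kbar (N * ℓ) q) (heckeBetaBar Kbar (N * ℓ) q)
    (fun _ => rfl) (fun _ => rfl)
    (fun _ => rfl) (fun _ => rfl)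
    (degPair_alpha_beta Kbar N q hq ζ hζ) (degPair_alpha_beta Kbar (N * ℓ) q hq ζ hζ)
    (finiteAlong_alpha Kbar N q) (finrankAlong_alpha_eq N hq hqN)
    (finiteAlong_alpha Kbar (N * ℓ) q) (finrankAlong_alpha_eq (N * ℓ) hq hqNℓ)
    hαq hα' hβ' hα hβ D

/-- **(D2), divisor level, `β`.**  `β_* ∘ T_ℓ^{(Nq)} = T_ℓ^{(N)} ∘ β_*` on divisors, for primes
`q ∤ N` and `ℓ ≠ q`. -/
theorem pushforwardAlong_beta_heckeDivBar
    (hq : q.Prime) (hqN : ¬ q ∣ N) (hℓ : ℓ.Prime) (hℓq : ℓ ≠ q)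
    (hβq : HeckeBetaBarIntegral Kbar N q)
    (hα' : HeckeAlphaBarIntegral Kbar (N * q) ℓ) (hβ' : HeckeBetaBarIntegral Kbar (N * q) ℓ)
    (hα : HeckeAlphaBarIntegral Kbar N ℓ) (hβ : HeckeBetaBarIntegral Kbar N ℓ)
    (D : Divisor Kbar (FF (N * q))) :
    Divisor.pushforwardAlong (heckeBetaBar Kbar N q) hβq (heckeDivBar hα' hβ' D) =
      heckeDivBar hα hβ (Divisor.pushforwardAlong (heckeBetaBar Kbar N q) hβq D) := by
  haveI : CharZero Kbar := charZero_of_ratAlgebra Kbar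
  obtain ⟨ζ, hζ⟩ := exists_prim_unit Kbar q hq.ne_zero
  have hqNℓ := not_dvd_mul_of_ne hq hqN hℓ hℓq
  exact pushforwardAlong_heckeDivBar_of_degPair hq hqN hℓ hℓq (qExpand Kbar q) id
    (fun f => qExpand_qExpand_comm f) (fun _ => rfl)
    (heckeBetaBar Kbar N q) (heckeAlphaBar Kbar N q)
    (heckeBetaBar Kbar (N * ℓ) q) (heckeAlphaBar Kbar (N * ℓ) q)
    (fun _ => rfl) (fun _ => rfl)
    (fun _ => rfl) (fun _ => rfl)
    (degPair_beta_alpha Kbar N q hq ζ hζ) (degPair_beta_alpha Kbar (N * ℓ) q hq ζ hζ)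
    (finiteAlong_beta Kbar N q)
    (finrankAlong_beta (finrankAlong_alpha_eq N hq hqN) hq hqN ζ hζ)
    (finiteAlong_beta Kbar (N * ℓ) q)
    (finrankAlong_beta (finrankAlong_alpha_eq (N * ℓ) hq hqNℓ) hq hqNℓ ζ hζ)
    hβq hα' hβ' hα hβ D

end Main

end Fermat.Agent.S35x.Degeneracy
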