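import Fermat.Agent.S35x.Degeneracy.SquaresGeneric
import Fermat.Agent.Gateway.ESC.CharpolyBeta
import Fermat.Agent.Gateway.Hecke.Inputs

/-!
# P-S34 phase 2 (S35), (P2-d)/(D2): power bases of `F_{Mq}` over `α F_M` and over `β F_M`

`L` algebraically closed of characteristic zero, `q ∤ M` prime, `(a, b)` one of the pairs
`(α, β)`, `(β, α)` of degeneracy maps `F_M → F_{Mq}` (a `DegPair`), `[F_{Mq} : a F_M] = q + 1`,
`d ∣ M` prime to `q`.  Then `1, b(j_d), …, b(j_d)^q` is a basis of `F_{Mq}` over `a F_M`
(the `q + 1` embeddings of `F_{Mq}` over `a F_M` classified in `ESC/EmbClassify.lean` take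
pairwise distinct values at `b (j_d)`).
-/

set_option autoImplicit false
set_option linter.unusedSectionVars false
set_option linter.style.haveILetI false

noncomputable section

open Polynomial ModularCurve AlgebraicCurve IntermediateField

namespace Fermat.Agent.S35x.Degeneracy

open Fermat.Agent.S28 Fermat.Agent.S28.Tower Fermat.Agent.Gateway.Hecke Fermat.Agent.Gateway.ESC

section TauJ

variable {L : Type} [Field L] {q : ℕ}

/-- the `q + 1` conjugates of `j(q^d)`, `d` prime to `q`, are pairwise distinct -/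
theorem tauJ_injective (hq : q.Prime) {ζ : Lˣ} (hζ : IsPrimitiveRoot ζ q) {d : ℕ} (hd0 : d ≠ 0)
    (hdq : d.Coprime q) : Function.Injective (fun c : Option (Fin q) => tauJ ζ q c d) := by
  intro c c' h
  have hq2 : 1 < q ^ 2 := Nat.one_lt_pow (by norm_num) hq.one_lt
  have hd2 : d * q ^ 2 ≠ d := by
    intro h1
    have : d * q ^ 2 = d * 1 := by rw [h1, mul_one]
    have := Nat.eq_of_mul_eq_mul_left (Nat.pos_of_ne_zero hd0) this
    omega
  have hζd : IsPrimitiveRoot (ζ ^ d) q := hζ.pow_of_coprime d hdq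
  cases c with
  | none =>
    cases c' with
    | none => rfl
    | some i' =>
      exfalso
      simp only [tauJ] at h
      exact hd2 ((jS_eq_jS_iff (Nat.mul_ne_zero hd0 (by positivity)) hd0).mp h).1
  | some i =>
    cases c' with
    | none =>
      exfalso
      simp only [tauJ] at h
      exact hd2 ((jS_eq_jS_iff hd0 (Nat.mul_ne_zero hd0 (by positivity))).mp h).1.symm
    | some i' =>
      simp only [tauJ] at h
      have h3 := ((jS_eq_jS_iff hd0 hd0).mp h).2
      rw [mul_comm (i : ℕ) d, mul_comm (i' : ℕ) d, pow_mul, pow_mul] at h3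
      have h4 := hζd.pow_inj i.2 i'.2 h3
      exact congrArg some (Fin.ext h4)

end TauJ

section DegPairBasis

variable {L : Type} [Field L] [Algebra ℚ L] [IsAlgClosed L] {M q : ℕ} [NeZero M] [NeZero q]
variable {a b : FL L M →ₐ[L] FL L (M * q)}

/-- The powers `1, b(j_d), …, b(j_d)^q` are linearly independent over `a F_M`. -/
theorem linearIndependent_pow_of_degPair (hab : DegPair L M q a b) (hfin : FiniteAlong L a)
    (hdeg : finrankAlong L a = q + 1) (hq : q.Prime) (hqM : ¬ q ∣ M) {d : ℕ} (hd0 : d ≠ 0)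
    (hd : d ∣ M) (hdq : d.Coprime q) :
    @LinearIndependent (Fin (q + 1)) (FL L M) (FL L (M * q))
      (fun e => b (genS L M hd0 hd) ^ (e : ℕ)) _ _ (algebraAlong a).toModule := by
  classical
  haveI : CharZero L := charZero_of_ratAlgebra L
  obtain ⟨ζ, hζ⟩ := exists_prim_unit L q hq.ne_zero
  letI := algebraAlong a
  let emb : LaurentSeries L →+* AlgebraicClosure (LaurentSeries L) :=
    algebraMap (LaurentSeries L) (AlgebraicClosure (LaurentSeries L))
  choose σ hσ1 hσ2 using fun c : Option (Fin q) =>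
    hab.exists_ringHom hfin hdeg hq hqM ζ hζ emb c
  refine linearIndependent_pow_of_ringHoms (q + 1)
    (by rw [Fintype.card_option, Fintype.card_fin]) (emb.comp (baseHom L M q)) σ ?_
    (b (genS L M hd0 hd)) ?_
  · intro c x
    exact congrFun (congrArg DFunLike.coe (hσ1 c)) x
  · intro c c' h
    have h1 : σ c (b.toRingHom (genS L M hd0 hd)) = σ c' (b.toRingHom (genS L M hd0 hd)) := h
    rw [hσ2 c, hσ2 c', RingHom.comp_apply, RingHom.comp_apply, conjHom_apply, conjHom_apply] at h1
    have h2 := emb.injective h1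
    have h3 : tauJ ζ q c d = tauJ ζ q c' d := by
      rw [← tauHom_jS L q ζ c hd0, ← tauHom_jS L q ζ c' hd0]
      exact h2
    exact tauJ_injective hq hζ hd0 hdq h3

/-- The power basis `1, b(j_d), …, b(j_d)^q` of `F_{Mq}` over `a F_M`. -/
theorem exists_powBasis_of_degPair (hab : DegPair L M q a b) (hfin : FiniteAlong L a)
    (hdeg : finrankAlong L a = q + 1) (hq : q.Prime) (hqM : ¬ q ∣ M) {d : ℕ} (hd0 : d ≠ 0)
    (hd : d ∣ M) (hdq : d.Coprime q) :
    ∃ B : @Module.Basis (Fin (q + 1)) (FL L M) (FL L (M * q)) _ _ (algebraAlong a).toModule,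
      ∀ e : Fin (q + 1), B e = b (genS L M hd0 hd) ^ (e : ℕ) := by
  letI := algebraAlong a
  have hli := linearIndependent_pow_of_degPair hab hfin hdeg hq hqM hd0 hd hdq
  have hcard : Fintype.card (Fin (q + 1)) = Module.finrank (FL L M) (FL L (M * q)) := by
    rw [Fintype.card_fin]
    exact hdeg.symm
  exact ⟨basisOfLinearIndependentOfCardEqFinrank hli hcard,
    fun e => by rw [coe_basisOfLinearIndependentOfCardEqFinrank]⟩

end DegPairBasis

end Fermat.Agent.S35x.Degeneracy
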