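import Fermat.Agent.Gateway.Descent.HeckeCompat

/-!
# P-S34 phase 2 (S35), (P2-d)/(D2): generic lemmas for the base-change squares at the level prime

* `pushforward_pushforward` / `pushforwardAlong_comp`: functoriality of the push-forward of divisors
  in towers (all places of the bottom field of nonzero degree);
* `pushforwardAlong_congr`;
* `linearIndependent_pow_of_ringHoms`: if `n` ring homomorphisms `σ_c : F₁₂ → E` agree on `F₂` and
  take pairwise distinct values at `y`, then `1, y, …, y^(n-1)` are linearly independent over `F₂`.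
-/

set_option autoImplicit false
set_option linter.unusedSectionVars false
set_option linter.style.haveILetI false

noncomputable section

open AlgebraicCurve

namespace Fermat.Agent.S35x.Degeneracy

open Fermat.Agent.Gateway.Descent

/-! ### Push-forward in towers -/

section Tower

variable {K F F' F'' : Type*} [Field K] [Field F] [Field F'] [Field F'']
  [Algebra K F] [Algebra K F'] [Algebra K F'']
  [Algebra F F'] [Algebra F' F''] [Algebra F F'']
  [IsScalarTower K F F'] [IsScalarTower K F' F''] [IsScalarTower K F F'']
  [IsScalarTower F F' F'']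
  [Algebra.IsIntegral F F'] [Algebra.IsIntegral F' F''] [Algebra.IsIntegral F F'']

theorem inertiaDeg_tower (hdeg : ∀ v : Place K F, v.deg ≠ 0) (w : Place K F'') :
    w.inertiaDeg F = w.inertiaDeg F' * (w.restrict F').inertiaDeg F := by
  have h1 := w.deg_restrict_mul_inertiaDeg (F := F)
  have h2 := w.deg_restrict_mul_inertiaDeg (F := F')
  have h3 := (w.restrict F').deg_restrict_mul_inertiaDeg (F := F)
  rw [BaseChangeSq.restrict_restrict (F := F) (F' := F') w] at h3
  have h4 : (w.restrict F).deg * w.inertiaDeg F =
      (w.restrict F).deg * (w.inertiaDeg F' * (w.restrict F').inertiaDeg F) := by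
    rw [h1, ← h2, ← h3]
    ring
  exact Nat.eq_of_mul_eq_mul_left (Nat.pos_of_ne_zero (hdeg _)) h4

/-- **Functoriality of the push-forward of divisors.** -/
theorem pushforward_pushforward (hdeg : ∀ v : Place K F, v.deg ≠ 0) (D : Divisor K F'') :
    Divisor.pushforward F (Divisor.pushforward F' D) = Divisor.pushforward F D := by
  induction D using Finsupp.induction with
  | zero => simp
  | single_add w n D _ _ ih =>
    rw [map_add, map_add, map_add, ih]
    congr 1
    rw [Divisor.pushforward_single, Divisor.pushforward_single, Divisor.pushforward_single,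
      BaseChangeSq.restrict_restrict (F := F) (F' := F') w, inertiaDeg_tower (F' := F') hdeg w]
    push_cast
    rw [mul_assoc]

end Tower

section Along

variable {K F F' F'' : Type*} [Field K] [Field F] [Field F'] [Field F'']
  [Algebra K F] [Algebra K F'] [Algebra K F'']

theorem pushforwardAlong_congr {φ φ' : F →ₐ[K] F'} (h : φ = φ') (hφ : φ.toRingHom.IsIntegral)
    (hφ' : φ'.toRingHom.IsIntegral) (D : Divisor K F') :
    Divisor.pushforwardAlong φ hφ D = Divisor.pushforwardAlong φ' hφ' D := by
  subst h
  rfl

/-- Functoriality of the push-forward of divisors, `Along` form. -/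
theorem pushforwardAlong_comp (hdeg : ∀ v : Place K F, v.deg ≠ 0)
    (φ : F →ₐ[K] F') (ψ : F' →ₐ[K] F'')
    (hφ : φ.toRingHom.IsIntegral) (hψ : ψ.toRingHom.IsIntegral)
    (hψφ : (ψ.comp φ).toRingHom.IsIntegral) (D : Divisor K F'') :
    Divisor.pushforwardAlong (ψ.comp φ) hψφ D =
      Divisor.pushforwardAlong φ hφ (Divisor.pushforwardAlong ψ hψ D) := by
  letI := algebraAlong φ
  letI := algebraAlong ψ
  letI := algebraAlong (ψ.comp φ)
  haveI := isScalarTower_along φ
  haveI := isScalarTower_along ψ
  haveI := isScalarTower_along (ψ.comp φ)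
  haveI := isIntegral_along φ hφ
  haveI := isIntegral_along ψ hψ
  haveI := isIntegral_along (ψ.comp φ) hψφ
  haveI : IsScalarTower F F' F'' := IsScalarTower.of_algebraMap_eq fun _ => rfl
  exact (pushforward_pushforward (K := K) (F := F) (F' := F') (F'' := F'') hdeg D).symm

end Along

/-! ### Linear independence of powers from distinct conjugates -/

section LinIndep

open Polynomial

variable {F₂ F₁₂ E : Type*} [Field F₂] [Field F₁₂] [Field E] [Algebra F₂ F₁₂]

/-- If the ring homomorphisms `σ c : F₁₂ → E` (`c` in a finite type of cardinality `n`) all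
restrict to the same `ι` on `F₂` and `c ↦ σ c y` is injective, then `1, y, …, y^(n-1)` are linearly
independent over `F₂`. -/
theorem linearIndependent_pow_of_ringHoms {ι' : Type*} [Fintype ι'] (n : ℕ)
    (hn : Fintype.card ι' = n) (ι : F₂ →+* E) (σ : ι' → (F₁₂ →+* E))
    (hσ : ∀ c x, σ c (algebraMap F₂ F₁₂ x) = ι x) (y : F₁₂)
    (hinj : Function.Injective fun c => σ c y) :
    LinearIndependent F₂ (fun e : Fin n => y ^ (e : ℕ)) := by
  classical
  rw [Fintype.linearIndependent_iff]
  intro g hg e
  -- the polynomial `P = ∑ ι (g e) X^e`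
  set P : E[X] := ∑ e : Fin n, C (ι (g e)) * X ^ (e : ℕ) with hP
  have hroot : ∀ c, P.eval (σ c y) = 0 := by
    intro c
    have h1 := congrArg (σ c) hg
    rw [map_zero, map_sum] at h1
    rw [hP, eval_finsetSum, ← h1]
    refine Finset.sum_congr rfl fun e _ => ?_
    rw [eval_mul, eval_C, eval_pow, eval_X, Algebra.smul_def, map_mul, hσ, map_pow]
  have hdeg : P.degree < n := by
    rw [hP]
    refine lt_of_le_of_lt (degree_sum_le _ _) ?_
    rw [Finset.sup_lt_iff (by exact WithBot.bot_lt_coe n)]
    intro e _
    refine lt_of_le_of_lt (degree_C_mul_X_pow_le _ _) ?_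
    exact_mod_cast e.2
  have hP0 : P = 0 := by
    by_contra hne
    have hsub : (Finset.univ.image fun c => σ c y) ⊆ P.roots.toFinset := by
      intro x hx
      rw [Finset.mem_image] at hx
      obtain ⟨c, -, rfl⟩ := hx
      rw [Multiset.mem_toFinset, mem_roots hne]
      exact hroot c
    have hcard : (Finset.univ.image fun c => σ c y).card ≤ P.natDegree :=
      (Finset.card_le_card hsub).trans
        ((Multiset.toFinset_card_le _).trans (card_roots' P))
    rw [Finset.card_image_of_injective _ hinj, Finset.card_univ, hn] at hcard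
    have := (natDegree_lt_iff_degree_lt hne).mpr hdeg
    omega
  have hcoeff : P.coeff (e : ℕ) = ι (g e) := by
    rw [hP, finsetSum_coeff, Finset.sum_eq_single e]
    · rw [coeff_C_mul, coeff_X_pow, if_pos rfl, mul_one]
    · intro b _ hb
      rw [coeff_C_mul, coeff_X_pow, if_neg (fun h => hb (Fin.ext h.symm)), mul_zero]
    · intro h
      exact absurd (Finset.mem_univ _) h
  rw [hP0, coeff_zero] at hcoeff
  exact (map_eq_zero ι).mp hcoeff.symm

end LinIndep

end Fermat.Agent.S35x.Degeneracy
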