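import Fermat.Agent.S35x.Degeneracy.Squares
import Fermat.Agent.S35x.Degeneracy.Defs

/-!
# P-S34 phase 2 (S35), (P2-d)/(D2) on `J₀`: the degeneracy push-forwards commute with `T_ℓ`

For primes `q ∤ N` and `ℓ ≠ q` and ALL `x : J₀(N q)` (no torsion hypothesis, no Eichler-Shimura
input, `ℓ` may divide `N`):

* `degAlpha_heckeOperatorAlong` : `N_α (T_ℓ x) = T_ℓ (N_α x)`;
* `degBeta_heckeOperatorAlong`  : `N_β (T_ℓ x) = T_ℓ (N_β x)`.

Geometric proof (base-change squares of `Squares.lean`), independent of `HeckeES.lean`.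
-/

set_option autoImplicit false
set_option linter.unusedSectionVars false
set_option linter.style.haveILetI false

noncomputable section

open ModularCurve AlgebraicCurve IntermediateField

namespace Fermat.Agent.S35x.Degeneracy

open Fermat.Agent.S24 Fermat.Agent.S24.Setup
open Fermat.Agent.Gateway Fermat.Agent.Gateway.Hecke Fermat.Agent.Gateway.Descent

variable {N q ℓ : ℕ} [NeZero N] [NeZero q] [NeZero ℓ]

/-- **(D2)** `N_α : J₀(N q) → J₀(N)` commutes with `T_ℓ`, `ℓ ≠ q`. -/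
theorem degAlpha_heckeOperatorAlong (hq : q.Prime) (hqN : ¬ q ∣ N) (hℓ : ℓ.Prime) (hℓq : ℓ ≠ q)
    (x : JZero (N * q)) :
    degAlpha N q (heckeOperatorAlong Kbar (N * q) ℓ x) =
      heckeOperatorAlong Kbar N ℓ (degAlpha N q x) := by
  obtain ⟨hαN, hβN, hPN, hfinN, hFIN, hNN⟩ := HK1.heckeInputsAlong Kbar N ℓ
  obtain ⟨hαM, hβM, hPM, hfinM, hFIM, hNM⟩ := HK1.heckeInputsAlong Kbar (N * q) ℓ
  rw [heckeOperatorAlong_eq hαN hβN hFIN hfinN hNN, heckeOperatorAlong_eq hαM hβM hFIM hfinM hNM]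
  obtain ⟨D, rfl⟩ := QuotientAddGroup.mk_surjective x
  show degAlpha N q (heckePic0Bar hαM hβM hFIM hfinM hNM (Pic0.mk D)) =
    heckePic0Bar hαN hβN hFIN hfinN hNN (degAlpha N q (Pic0.mk D))
  rw [heckePic0Bar_mk', degAlpha_mk, degAlpha_mk, heckePic0Bar_mk']
  congr 1
  apply Subtype.ext
  exact pushforwardAlong_alpha_heckeDivBar hq hqN hℓ hℓq (heckeAlphaBarIntegral Kbar N q)
    hαM hβM hαN hβN (D : Divisor Kbar (FF (N * q)))

/-- **(D2)** `N_β : J₀(N q) → J₀(N)` commutes with `T_ℓ`, `ℓ ≠ q`. -/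
theorem degBeta_heckeOperatorAlong (hq : q.Prime) (hqN : ¬ q ∣ N) (hℓ : ℓ.Prime) (hℓq : ℓ ≠ q)
    (x : JZero (N * q)) :
    degBeta N q (heckeOperatorAlong Kbar (N * q) ℓ x) =
      heckeOperatorAlong Kbar N ℓ (degBeta N q x) := by
  obtain ⟨hαN, hβN, hPN, hfinN, hFIN, hNN⟩ := HK1.heckeInputsAlong Kbar N ℓ
  obtain ⟨hαM, hβM, hPM, hfinM, hFIM, hNM⟩ := HK1.heckeInputsAlong Kbar (N * q) ℓ
  rw [heckeOperatorAlong_eq hαN hβN hFIN hfinN hNN, heckeOperatorAlong_eq hαM hβM hFIM hfinM hNM]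
  obtain ⟨D, rfl⟩ := QuotientAddGroup.mk_surjective x
  show degBeta N q (heckePic0Bar hαM hβM hFIM hfinM hNM (Pic0.mk D)) =
    heckePic0Bar hαN hβN hFIN hfinN hNN (degBeta N q (Pic0.mk D))
  rw [heckePic0Bar_mk', degBeta_mk, degBeta_mk, heckePic0Bar_mk']
  congr 1
  apply Subtype.ext
  exact pushforwardAlong_beta_heckeDivBar hq hqN hℓ hℓq (heckeBetaBarIntegral Kbar N q)
    hαM hβM hαN hβN (D : Divisor Kbar (FF (N * q)))

end Fermat.Agent.S35x.Degeneracy
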